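import Fermat.Agent.S17.GF.Product

/-!
# S17, block GF : Northcott for `ℚ`
-/

set_option autoImplicit false

namespace Fermat.Agent.S17.GF

theorem NorthcottQ_max_some (p : Nat.Primes) (r : ℚ) :
    max (av (some p) (algebraMap ℚ Kb (r.den : ℚ))) (av (some p) (algebraMap ℚ Kb (r.num : ℚ))) =
      1 := by
  rw [av_some_rat, av_some_rat]
  have h1 : padicNorm (p : ℕ) (r.den : ℚ) ≤ 1 := padicNorm.of_nat _
  have h2 : padicNorm (p : ℕ) (r.num : ℚ) ≤ 1 := padicNorm.of_int _
  have h1' : ((padicNorm (p : ℕ) (r.den : ℚ) : ℚ) : ℝ) ≤ 1 := by exact_mod_cast h1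
  have h2' : ((padicNorm (p : ℕ) (r.num : ℚ) : ℚ) : ℝ) ≤ 1 := by exact_mod_cast h2
  by_cases hd : (p : ℕ) ∣ r.den
  · have hn : ¬ ((p : ℕ) : ℤ) ∣ r.num := by
      intro hn
      have hn' : (p : ℕ) ∣ r.num.natAbs := Int.natCast_dvd.mp hn
      have := Nat.dvd_gcd hn' hd
      rw [r.reduced] at this
      exact p.2.one_lt.ne' (Nat.dvd_one.mp this)
    have : padicNorm (p : ℕ) (r.num : ℚ) = 1 := (padicNorm.int_eq_one_iff _).mpr hn
    rw [this]
    simpa using h1'
  · have : padicNorm (p : ℕ) (r.den : ℚ) = 1 := (padicNorm.nat_eq_one_iff _).mpr hd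
    rw [this]
    simpa using h2'

theorem NorthcottQ_ht_eq (r : ℚ) :
    ∑ᶠ v : PlQ, Real.log (max 1 (av v (algebraMap ℚ Kb r))) =
      Real.log (max (r.den : ℝ) |(r.num : ℝ)|) := by
  have hd0 : (r.den : ℚ) ≠ 0 := by exact_mod_cast r.den_nz
  have hd0' : algebraMap ℚ Kb (r.den : ℚ) ≠ 0 := by
    simp
  have key : (fun v : PlQ => Real.log (max 1 (av v (algebraMap ℚ Kb r)))) = fun v =>
      Real.log (max (av v (algebraMap ℚ Kb (r.den : ℚ))) (av v (algebraMap ℚ Kb (r.num : ℚ)))) -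
        Real.log (av v (algebraMap ℚ Kb (r.den : ℚ))) := by
    funext v
    have hpos : 0 < av v (algebraMap ℚ Kb (r.den : ℚ)) := (av v).pos hd0'
    have hr : algebraMap ℚ Kb r =
        algebraMap ℚ Kb (r.num : ℚ) / algebraMap ℚ Kb (r.den : ℚ) := by
      rw [← map_div₀, Rat.num_div_den]
    rw [hr, map_div₀, ← Real.log_div (lt_of_lt_of_le hpos (le_max_left _ _)).ne' hpos.ne',
      ← max_div_div_right hpos.le, div_self hpos.ne']
  have hoff : ∀ v : PlQ, v ≠ none → Real.log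
      (max (av v (algebraMap ℚ Kb (r.den : ℚ))) (av v (algebraMap ℚ Kb (r.num : ℚ)))) = 0 := by
    intro v hv
    match v, hv with
    | none, hv => exact absurd rfl hv
    | some p, _ => rw [NorthcottQ_max_some, Real.log_one]
  have hsupp : (Function.support fun v : PlQ => Real.log
      (max (av v (algebraMap ℚ Kb (r.den : ℚ))) (av v (algebraMap ℚ Kb (r.num : ℚ))))).Finite := by
    refine (Set.finite_singleton (none : PlQ)).subset ?_
    intro v hv
    by_contra h
    exact hv (hoff v h)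
  rw [key, finsum_sub_distrib hsupp (Product_Good_rat hd0).1, sum_log_av_rat hd0, sub_zero,
    finsum_eq_single _ none hoff, av_none_rat, av_none_rat]
  simp

/-- **Northcott for `ℚ`**: `∏_p max(1,|r|_p) = den r` and `|num r| = |r|_∞ den r`, hence
`max(|num|, den) ≤ exp B`; finitely many such `r`
(`Rat.num_div_den`, injectivity of `r ↦ (num, den)` into a finite box). -/
theorem finite_rat_ht_le (B : ℝ) :
    {r : ℚ | ∑ᶠ v : PlQ, Real.log (max 1 (av v (algebraMap ℚ Kb r))) ≤ B}.Finite := by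
  obtain ⟨M, hM⟩ := exists_nat_ge (Real.exp B)
  have hfin : ((Set.Icc (-(M : ℤ)) M) ×ˢ (Set.Icc 0 M : Set ℕ)).Finite :=
    (Set.finite_Icc _ _).prod (Set.finite_Icc _ _)
  refine Set.Finite.of_finite_image (f := fun r : ℚ => (r.num, r.den)) (hfin.subset ?_) ?_
  · rintro _ ⟨r, hr, rfl⟩
    rw [Set.mem_ofPred_eq, NorthcottQ_ht_eq] at hr
    have hpos : 0 < max (r.den : ℝ) |(r.num : ℝ)| :=
      lt_of_lt_of_le (by exact_mod_cast r.den_pos) (le_max_left _ _)
    have hle : max (r.den : ℝ) |(r.num : ℝ)| ≤ M := by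
      refine le_trans ?_ hM
      rw [← Real.exp_log hpos]
      exact Real.exp_le_exp.mpr hr
    have h1 : (r.den : ℝ) ≤ M := le_trans (le_max_left _ _) hle
    have h2 : |(r.num : ℝ)| ≤ M := le_trans (le_max_right _ _) hle
    have h2' := abs_le.mp h2
    refine ⟨⟨?_, ?_⟩, ⟨Nat.zero_le _, ?_⟩⟩
    · have := h2'.1
      exact_mod_cast this
    · have := h2'.2
      exact_mod_cast this
    · exact_mod_cast h1
  · intro r _ s _ h
    simp only [Prod.mk.injEq] at h
    exact Rat.ext h.1 h.2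

end Fermat.Agent.S17.GF
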