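import Fermat.Agent.S17.GF.Abs

/-!
# S17, block GF : local estimates for the coefficients of `∏ (X - a_τ)`
-/

set_option autoImplicit false

namespace Fermat.Agent.S17.GF

open Polynomial

theorem Coeff_X_mul_le (w : AbsoluteValue Kb ℝ) (Q : Kb[X]) (M : ℝ)
    (hM : ∀ k, w (Q.coeff k) ≤ M) (k : ℕ) : w ((X * Q).coeff k) ≤ M := by
  cases k with
  | zero =>
    rw [coeff_X_mul_zero, map_zero]
    exact le_trans (w.nonneg _) (hM 0)
  | succ k =>
    rw [coeff_X_mul]
    exact hM k

theorem Coeff_step (w : AbsoluteValue Kb ℝ) (Q : Kb[X]) (M : ℝ)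
    (hM : ∀ k, w (Q.coeff k) ≤ M) (a : Kb) (k : ℕ) :
    w (((X - C a) * Q).coeff k) ≤ 2 * max 1 (w a) * M := by
  have hM0 : 0 ≤ M := le_trans (w.nonneg _) (hM 0)
  rw [sub_mul, coeff_sub, coeff_C_mul]
  have h1 := Coeff_X_mul_le w Q M hM k
  have h2 : w (a * Q.coeff k) ≤ max 1 (w a) * M := by
    rw [map_mul]
    exact mul_le_mul (le_max_right _ _) (hM k) (w.nonneg _) (le_trans zero_le_one (le_max_left _ _))
  have h3 : M ≤ max 1 (w a) * M := le_mul_of_one_le_left hM0 (le_max_left _ _)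
  have h4 := w.sub_le_add ((X * Q).coeff k) (a * Q.coeff k)
  linarith

theorem Coeff_step_nonarch (w : AbsoluteValue Kb ℝ) (hw : IsNonarchimedean w) (Q : Kb[X]) (M : ℝ)
    (hM : ∀ k, w (Q.coeff k) ≤ M) (a : Kb) (k : ℕ) :
    w (((X - C a) * Q).coeff k) ≤ max 1 (w a) * M := by
  have hM0 : 0 ≤ M := le_trans (w.nonneg _) (hM 0)
  rw [sub_mul, coeff_sub, coeff_C_mul]
  have h1 := Coeff_X_mul_le w Q M hM k
  have h2 : w (a * Q.coeff k) ≤ max 1 (w a) * M := by
    rw [map_mul]
    exact mul_le_mul (le_max_right _ _) (hM k) (w.nonneg _) (le_trans zero_le_one (le_max_left _ _))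
  have h3 : M ≤ max 1 (w a) * M := le_mul_of_one_le_left hM0 (le_max_left _ _)
  have h4 : w ((X * Q).coeff k - a * Q.coeff k) ≤ max (w ((X * Q).coeff k)) (w (a * Q.coeff k)) := by
    have := hw ((X * Q).coeff k) (-(a * Q.coeff k))
    rwa [← sub_eq_add_neg, map_neg_eq_map] at this
  exact le_trans h4 (max_le (le_trans h1 h3) h2)

/-- Local estimate for the coefficients of `∏ (X - a_τ)`: for every absolute value `w`,
`|coeff_k| ≤ 2^#T ∏_τ max(1, |a_τ|)`, and `≤ ∏_τ max(1,|a_τ|)` if `w` is nonarchimedean.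
(Induction on `T`: `coeff_k ((X - C a) * Q) = coeff_{k-1} Q - a coeff_k Q`.) -/
theorem coeff_prod_le (w : AbsoluteValue Kb ℝ) (T : Finset GQ) (a : GQ → Kb) (k : ℕ) :
    w ((∏ τ ∈ T, (X - C (a τ))).coeff k) ≤ 2 ^ T.card * ∏ τ ∈ T, max 1 (w (a τ)) := by
  classical
  induction T using Finset.induction_on generalizing k with
  | empty =>
    simp only [Finset.prod_empty, Finset.card_empty, pow_zero, mul_one, coeff_one]
    split_ifs
    · simp
    · simp
  | insert s T hs ih =>
    rw [Finset.prod_insert hs, Finset.prod_insert hs, Finset.card_insert_of_notMem hs]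
    refine le_trans (Coeff_step w _ _ ih (a s) k) (le_of_eq ?_)
    ring

theorem coeff_prod_le_of_nonarch (w : AbsoluteValue Kb ℝ) (hw : IsNonarchimedean w)
    (T : Finset GQ) (a : GQ → Kb) (k : ℕ) :
    w ((∏ τ ∈ T, (X - C (a τ))).coeff k) ≤ ∏ τ ∈ T, max 1 (w (a τ)) := by
  classical
  induction T using Finset.induction_on generalizing k with
  | empty =>
    simp only [Finset.prod_empty, coeff_one]
    split_ifs
    · simp
    · simp
  | insert s T hs ih =>
    rw [Finset.prod_insert hs, Finset.prod_insert hs]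
    exact Coeff_step_nonarch w hw _ _ ih (a s) k

end Fermat.Agent.S17.GF
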