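import Fermat.Agent.S17.GF.Abs

/-!
# S17, block GF : almost all absolute values are trivial on a given finite set of elements
-/

set_option autoImplicit false

namespace Fermat.Agent.S17.GF

theorem Integral_sum_lt {w : AbsoluteValue Kb ℝ} (hw : IsNonarchimedean w) {x : Kb} (hx : 1 < w x)
    (c : ℕ → Kb) (hc : ∀ i, w (c i) ≤ 1) (n : ℕ) :
    w (∑ i ∈ Finset.range n, c i * x ^ i) < w x ^ n := by
  induction n with
  | zero => simp
  | succ n ih =>
    rw [Finset.sum_range_succ]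
    have h0 : 0 ≤ w x ^ n := pow_nonneg (w.nonneg x) n
    have h1 : w (c n * x ^ n) ≤ w x ^ n := by
      rw [map_mul, map_pow]
      exact mul_le_of_le_one_left h0 (hc n)
    calc w (∑ i ∈ Finset.range n, c i * x ^ i + c n * x ^ n)
        ≤ max (w (∑ i ∈ Finset.range n, c i * x ^ i)) (w (c n * x ^ n)) := hw _ _
      _ ≤ w x ^ n := max_le ih.le h1
      _ < w x ^ (n + 1) := pow_lt_pow_right₀ hx (Nat.lt_succ_self n)

theorem Integral_av_int_le_one (p : Nat.Primes) (z : ℤ) : av (some p) (algebraMap ℤ Kb z) ≤ 1 := by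
  have h : algebraMap ℤ Kb z = algebraMap ℚ Kb (z : ℚ) := by simp
  rw [h, av_some_rat]
  exact_mod_cast padicNorm.of_int z

/-- Algebraic integers are `p`-adically integral.
PROOF.  Let `w = av (some p)`, nonarchimedean, `w n ≤ 1` for `n : ℤ` (`av_some_rat`,
`padicNorm.of_int`).  If `w x > 1`, a monic equation `x^n = -∑_{i<n} c_i x^i` gives
`w x ^ n ≤ max_i w x ^ i ≤ w x ^ (n-1)` (`IsNonarchimedean.apply_sum_le_sup_of_isNonarchimedean` or an
induction), contradiction.  (Alternative: `{x | w x ≤ 1}` is a valuation subring, hence integrally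
closed.) -/
theorem av_some_le_one_of_isIntegral (p : Nat.Primes) {x : Kb} (hx : IsIntegral ℤ x) :
    av (some p) x ≤ 1 := by
  obtain ⟨P, hP, hroot⟩ := hx
  by_contra hlt
  rw [not_le] at hlt
  rw [Polynomial.eval₂_eq_sum_range, Finset.sum_range_succ, hP.coeff_natDegree, map_one,
    one_mul] at hroot
  have h1 := Integral_sum_lt (av_some_nonarch p) hlt (fun i => algebraMap ℤ Kb (P.coeff i))
    (fun i => Integral_av_int_le_one p _) P.natDegree
  have h2 : x ^ P.natDegree = - ∑ i ∈ Finset.range P.natDegree, algebraMap ℤ Kb (P.coeff i) * x ^ i :=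
    eq_neg_of_add_eq_zero_right hroot
  rw [← map_pow, h2, AbsoluteValue.map_neg] at h1
  exact lt_irrefl _ h1

/-- Every element of `ℚ̄` becomes integral after multiplication by a positive integer
(`exists_integral_multiple`, `IsAlgebraic`). -/
theorem exists_nat_mul_isIntegral (a : Kb) : ∃ N : ℕ, 0 < N ∧ IsIntegral ℤ ((N : Kb) * a) := by
  have ha : IsAlgebraic ℤ a :=
    (IsFractionRing.isAlgebraic_iff ℤ ℚ Kb).mpr (Algebra.IsAlgebraic.isAlgebraic a)
  obtain ⟨y, hy0, hy⟩ := ha.exists_integral_multiple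
  refine ⟨y.natAbs, Int.natAbs_pos.mpr hy0, ?_⟩
  have hy' : IsIntegral ℤ ((y : Kb) * a) := by
    rwa [zsmul_eq_mul] at hy
  rcases Int.natAbs_eq y with h | h
  · have : ((y.natAbs : ℕ) : Kb) = (y : Kb) := by
      conv_rhs => rw [h]
      simp
    rwa [this]
  · have : ((y.natAbs : ℕ) : Kb) = -(y : Kb) := by
      conv_rhs => rw [h]
      simp
    rw [this, neg_mul]
    exact hy'.neg

/-- `|τ a|_p ≤ 1` for all `τ` and all `p ∤ N`, if `N a` is integral. -/
theorem avt_le_one_of_not_dvd {a : Kb} {N : ℕ} (hN : IsIntegral ℤ ((N : Kb) * a))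
    (p : Nat.Primes) (hp : ¬ (p : ℕ) ∣ N) (τ : GQ) : avt (some p) τ a ≤ 1 := by
  have h1 : IsIntegral ℤ (τ ((N : Kb) * a)) := hN.map (τ : Kb →ₐ[ℚ] Kb).toRingHom.toIntAlgHom
  have h2 := av_some_le_one_of_isIntegral p h1
  have h3 : av (some p) ((N : Kb)) = 1 := by
    have h : (N : Kb) = algebraMap ℚ Kb (N : ℚ) := by simp
    rw [h, av_some_rat, (padicNorm.nat_eq_one_iff N).mpr hp]
    simp
  rwa [map_mul, map_natCast, map_mul, h3, one_mul] at h2

/-- **(G2)** For `a ≠ 0`: `|τ a|_v = 1` for all `τ ∈ G_ℚ` and almost all `v`. -/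
theorem finite_avt_ne_one {a : Kb} (ha : a ≠ 0) :
    {v : PlQ | ∃ τ : GQ, avt v τ a ≠ 1}.Finite := by
  obtain ⟨N, hN0, hN⟩ := exists_nat_mul_isIntegral a
  obtain ⟨N', hN'0, hN'⟩ := exists_nat_mul_isIntegral a⁻¹
  have hfin : {p : Nat.Primes | (p : ℕ) ∣ N * N'}.Finite := by
    refine Set.Finite.subset
      (Set.Finite.preimage Subtype.val_injective.injOn (Set.finite_Iic (N * N'))) ?_
    intro p hp
    exact Nat.le_of_dvd (Nat.mul_pos hN0 hN'0) hp
  refine Set.Finite.subset ((hfin.image some).insert none) ?_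
  rintro v ⟨τ, hτ⟩
  cases v with
  | none => exact Set.mem_insert _ _
  | some p =>
    refine Set.mem_insert_of_mem _ ⟨p, ?_, rfl⟩
    by_contra hp
    have hp : ¬ (p : ℕ) ∣ N * N' := hp
    have h1 := avt_le_one_of_not_dvd hN p (fun h => hp (Dvd.dvd.mul_right h N')) τ
    have h2 := avt_le_one_of_not_dvd hN' p (fun h => hp (Dvd.dvd.mul_left h N)) τ
    rw [map_inv₀] at h2
    have hpos : 0 < avt (some p) τ a := (avt (some p) τ).pos ha
    have h3 : 1 ≤ avt (some p) τ a := (inv_le_one₀ hpos).mp h2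
    exact hτ (le_antisymm h1 h3)

/-- The exceptional set of a finite set `A` of non-zero elements: `∞` and the `v` at which some
conjugate of some `a ∈ A` is not a unit. -/
def badSet (A : Finset Kb) : Set PlQ := {v | v = none ∨ ∃ τ : GQ, ∃ a ∈ A, avt v τ a ≠ 1}

theorem finite_badSet (A : Finset Kb) (hA : ∀ a ∈ A, a ≠ 0) : (badSet A).Finite := by
  refine Set.Finite.subset ((Set.finite_singleton (none : PlQ)).union
    (Set.Finite.biUnion A.finite_toSet fun a ha => finite_avt_ne_one (hA a ha))) ?_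
  rintro v (rfl | ⟨τ, a, ha, h⟩)
  · exact Or.inl rfl
  · exact Or.inr (Set.mem_biUnion (Finset.mem_coe.mpr ha) ⟨τ, h⟩)

theorem exists_prime_of_notMem_badSet {A : Finset Kb} {v : PlQ} (hv : v ∉ badSet A) :
    (∃ p : Nat.Primes, v = some p) ∧ ∀ τ : GQ, ∀ a ∈ A, avt v τ a = 1 := by
  refine ⟨?_, fun τ a ha => ?_⟩
  · cases v with
    | none => exact absurd (Or.inl rfl) hv
    | some p => exact ⟨p, rfl⟩
  · by_contra h
    exact hv (Or.inr ⟨τ, a, ha, h⟩)

end Fermat.Agent.S17.GF
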