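import Fermat.Agent.S17.GF.Reps

/-!
# S17, block GF : sums over `G_ℚ / G_L`, norm and characteristic polynomial
-/

set_option autoImplicit false

namespace Fermat.Agent.S17.GF

open Polynomial

variable {L : IntermediateField ℚ Kb} {T : Finset GQ}

/-- a right `G_L`-invariant function only depends on the restriction to `L`. -/
theorem RepsSum_eq_of_res_eq {M : Type*} (f : GQ → M)
    (hf : ∀ τ : GQ, ∀ ρ ∈ L.fixingSubgroup, f (τ * ρ) = f τ) {τ τ' : GQ}
    (h : Reps_res L τ = Reps_res L τ') : f τ = f τ' := by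
  have h1 : τ⁻¹ * τ' ∈ L.fixingSubgroup := by
    rw [IntermediateField.mem_fixingSubgroup_iff]
    intro x hx
    have h2 : τ x = τ' x := DFunLike.congr_fun h (⟨x, hx⟩ : L)
    rw [AlgEquiv.mul_apply, ← h2]
    exact τ.symm_apply_apply x
  rw [← hf τ _ h1, mul_inv_cancel_left]

/-- multiplicative version of `IsReps.sum_congr`. -/
theorem RepsSum_prod_congr {T' : Finset GQ} (hT : IsReps L T) (hT' : IsReps L T') {M : Type*}
    [CommMonoid M] (f : GQ → M) (hf : ∀ τ : GQ, ∀ ρ ∈ L.fixingSubgroup, f (τ * ρ) = f τ) :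
    ∏ τ ∈ T, f τ = ∏ τ ∈ T', f τ := by
  have hex : ∀ τ : GQ, ∃ τ' ∈ T', Reps_res L τ' = Reps_res L τ := fun τ =>
    (Reps_bijOn hT').surjOn (Set.mem_univ (Reps_res L τ))
  choose i hi hres using hex
  refine Finset.prod_bij (fun τ _ => i τ) (fun τ _ => hi τ) ?_ ?_ ?_
  · intro τ₁ h₁ τ₂ h₂ h
    apply (Reps_bijOn hT).injOn h₁ h₂
    rw [← hres τ₁, ← hres τ₂, h]
  · intro τ' hτ'
    obtain ⟨τ, hτ, h⟩ := (Reps_bijOn hT).surjOn (Set.mem_univ (Reps_res L τ'))
    refine ⟨τ, hτ, (Reps_bijOn hT').injOn (hi τ) hτ' ?_⟩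
    rw [hres τ, h]
  · intro τ _
    exact RepsSum_eq_of_res_eq f hf (hres τ).symm

/-- the translate of a system of representatives. -/
theorem RepsSum_isReps_image [DecidableEq GQ] (hT : IsReps L T) (σ : GQ) :
    IsReps L (T.image (σ * ·)) := by
  intro φ
  obtain ⟨τ, ⟨hτ, h⟩, huniq⟩ := hT (((σ⁻¹ : GQ) : Kb →ₐ[ℚ] Kb).comp φ)
  refine ⟨σ * τ, ⟨Finset.mem_image_of_mem _ hτ, fun x => ?_⟩, ?_⟩
  · rw [AlgEquiv.mul_apply, h x]
    exact σ.apply_symm_apply (φ x)
  · rintro τ' ⟨hτ', h'⟩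
    obtain ⟨τ₀, hτ₀, rfl⟩ := Finset.mem_image.1 hτ'
    have : τ₀ = τ := huniq τ₀ ⟨hτ₀, fun x => by
      have := h' x
      rw [AlgEquiv.mul_apply] at this
      show τ₀ (x : Kb) = σ.symm (φ x)
      rw [← this]
      exact (σ.symm_apply_apply _).symm⟩
    rw [this]

theorem RepsSum_prod_mul_left (hT : IsReps L T) (σ : GQ) {M : Type*}
    [CommMonoid M] (f : GQ → M) (hf : ∀ τ : GQ, ∀ ρ ∈ L.fixingSubgroup, f (τ * ρ) = f τ) :
    ∏ τ ∈ T, f (σ * τ) = ∏ τ ∈ T, f τ := by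
  classical
  rw [RepsSum_prod_congr hT (RepsSum_isReps_image hT σ) f hf,
    Finset.prod_image (fun a _ b _ h => mul_left_cancel h)]

/-- A function on `G_ℚ / G_L` has the same sum over any two systems of representatives. -/
theorem IsReps.sum_congr {T' : Finset GQ} (hT : IsReps L T) (hT' : IsReps L T') {M : Type*}
    [AddCommMonoid M] (f : GQ → M) (hf : ∀ τ : GQ, ∀ ρ ∈ L.fixingSubgroup, f (τ * ρ) = f τ) :
    ∑ τ ∈ T, f τ = ∑ τ ∈ T', f τ :=
  RepsSum_prod_congr (M := Multiplicative M) hT hT' f hf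

/-- left translation permutes `G_ℚ / G_L`. -/
theorem IsReps.sum_mul_left (hT : IsReps L T) (σ : GQ) {M : Type*}
    [AddCommMonoid M] (f : GQ → M) (hf : ∀ τ : GQ, ∀ ρ ∈ L.fixingSubgroup, f (τ * ρ) = f τ) :
    ∑ τ ∈ T, f (σ * τ) = ∑ τ ∈ T, f τ :=
  RepsSum_prod_mul_left (M := Multiplicative M) hT σ f hf

/-- `∏_τ τ a = N_{L/ℚ} a` (`Algebra.norm_eq_prod_embeddings`). -/
theorem IsReps.prod_apply_eq_norm [FiniteDimensional ℚ L] (hT : IsReps L T) (a : L) :
    ∏ τ ∈ T, τ (a : Kb) = algebraMap ℚ Kb (Algebra.norm ℚ a) := by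
  rw [Algebra.norm_eq_prod_embeddings ℚ Kb a]
  exact hT.prod_eq (fun φ => φ a)

/-- `∏_τ (X - τ a)` has rational coefficients (`Algebra.charpoly_eq_prod_embeddings`-type
statement: `Algebra.PowerBasis`-free proof: the polynomial is fixed by `G_ℚ` by
`IsReps.sum_mul_left`-type reindexing; or `charpoly_leftMulMatrix`, `Algebra.norm` of `X - a`). -/
theorem IsReps.exists_poly [FiniteDimensional ℚ L] (hT : IsReps L T) (a : L) :
    ∃ P : ℚ[X], P.Monic ∧ P.natDegree = T.card ∧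
      P.map (algebraMap ℚ Kb) = ∏ τ ∈ T, (X - C (τ (a : Kb))) := by
  set Q : Kb[X] := ∏ τ ∈ T, (X - C (τ (a : Kb))) with hQ
  have hmonic : Q.Monic := monic_prod_of_monic _ _ fun _ _ => monic_X_sub_C _
  have hdeg : Q.natDegree = T.card := by
    rw [hQ, natDegree_prod_of_monic _ _ fun _ _ => monic_X_sub_C _]
    simp
  have hfix : ∀ σ : GQ, Q.map ((σ : Kb →ₐ[ℚ] Kb) : Kb →+* Kb) = Q := by
    intro σ
    rw [hQ, Polynomial.map_prod]
    have h1 := RepsSum_prod_mul_left hT σ (fun τ => (X - C (τ (a : Kb)) : Kb[X])) (by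
      intro τ ρ hρ
      have : ρ (a : Kb) = a := (IntermediateField.mem_fixingSubgroup_iff L ρ).1 hρ a a.2
      simp only [AlgEquiv.mul_apply, this])
    rw [← h1]
    refine Finset.prod_congr rfl fun τ _ => ?_
    simp [AlgEquiv.mul_apply]
  have hlift : Q ∈ Polynomial.lifts (algebraMap ℚ Kb) := by
    rw [Polynomial.lifts_iff_coeff_lifts]
    intro n
    have h1 : Q.coeff n ∈ (⊥ : IntermediateField ℚ Kb) := by
      apply mem_of_forall_fixingSubgroup
      intro σ _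
      conv_rhs => rw [← hfix σ]
      rw [coeff_map]
      rfl
    exact IntermediateField.mem_bot.1 h1
  obtain ⟨P, hP, hPdeg, hPm⟩ := Polynomial.lifts_and_natDegree_eq_and_monic hlift hmonic
  exact ⟨P, hPm, hPdeg.trans hdeg, hP⟩

/-- going up: representatives for a bigger field `L ≤ L'`: each fibre of `T' → G_ℚ/G_L` has
`[L' : L]` elements, i.e. sums of `G_L`-invariant functions get multiplied by the degree. -/
theorem IsReps.sum_of_le {L' : IntermediateField ℚ Kb} {T' : Finset GQ}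
    [FiniteDimensional ℚ L] [FiniteDimensional ℚ L'] (hLL' : L ≤ L')
    (hT : IsReps L T) (hT' : IsReps L' T') (f : GQ → ℝ)
    (hf : ∀ τ : GQ, ∀ ρ ∈ L.fixingSubgroup, f (τ * ρ) = f τ) :
    ∑ τ ∈ T', f τ = ((Module.finrank ℚ L' : ℝ) / (Module.finrank ℚ L : ℝ)) * ∑ τ ∈ T, f τ := by
  classical
  -- the fibre cardinalities
  set c : GQ → ℝ := fun τ => ∑ τ' ∈ T', if Reps_res L τ' = Reps_res L τ then (1 : ℝ) else 0 with hc
  have hsub : ∀ ρ ∈ L'.fixingSubgroup, ρ ∈ L.fixingSubgroup := by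
    intro ρ hρ
    rw [IntermediateField.mem_fixingSubgroup_iff] at hρ ⊢
    exact fun x hx => hρ x (hLL' hx)
  have hres_mul : ∀ (τ ρ : GQ), ρ ∈ L.fixingSubgroup → Reps_res L (τ * ρ) = Reps_res L τ := by
    intro τ ρ hρ
    ext x
    rw [Reps_res_apply, Reps_res_apply, AlgEquiv.mul_apply,
      (IntermediateField.mem_fixingSubgroup_iff L ρ).1 hρ x x.2]
  have hres_left : ∀ (σ τ τ' : GQ), Reps_res L (σ⁻¹ * τ') = Reps_res L τ ↔
      Reps_res L τ' = Reps_res L (σ * τ) := by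
    intro σ τ τ'
    constructor
    · intro h
      ext x
      have := DFunLike.congr_fun h x
      rw [Reps_res_apply, Reps_res_apply, AlgEquiv.mul_apply] at this
      rw [Reps_res_apply, Reps_res_apply, AlgEquiv.mul_apply, ← this]
      exact (σ.apply_symm_apply _).symm
    · intro h
      ext x
      have := DFunLike.congr_fun h x
      rw [Reps_res_apply, Reps_res_apply, AlgEquiv.mul_apply] at this
      rw [Reps_res_apply, Reps_res_apply, AlgEquiv.mul_apply, this]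
      exact σ.symm_apply_apply _
  have hconst : ∀ τ : GQ, c τ = c 1 := by
    intro τ
    have h1 := hT'.sum_mul_left τ⁻¹ (fun τ' => if Reps_res L τ' = Reps_res L 1 then (1 : ℝ) else 0)
      (by
        intro τ' ρ hρ
        simp only [hres_mul τ' ρ (hsub ρ hρ)])
    simp only [hc]
    rw [← h1]
    refine Finset.sum_congr rfl fun τ' _ => ?_
    simp only [hres_left τ 1 τ', mul_one]
  have hfib : ∀ g : GQ → ℝ, (∀ τ : GQ, ∀ ρ ∈ L.fixingSubgroup, g (τ * ρ) = g τ) →
      ∑ τ ∈ T', g τ = c 1 * ∑ τ ∈ T, g τ := by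
    intro g hg
    have h1 : ∀ τ' ∈ T', g τ' =
        ∑ τ ∈ T, (if Reps_res L τ' = Reps_res L τ then (1 : ℝ) else 0) * g τ := by
      intro τ' _
      obtain ⟨τ₀, hτ₀, h⟩ := (Reps_bijOn hT).surjOn (Set.mem_univ (Reps_res L τ'))
      rw [Finset.sum_eq_single τ₀]
      · rw [if_pos h.symm, one_mul]
        exact RepsSum_eq_of_res_eq g hg h.symm
      · intro τ hτ hne
        rw [if_neg, zero_mul]
        intro h'
        exact hne ((Reps_bijOn hT).injOn hτ hτ₀ (h'.symm.trans h.symm))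
      · intro h'
        exact absurd hτ₀ h'
    rw [Finset.sum_congr rfl h1, Finset.sum_comm, Finset.mul_sum]
    refine Finset.sum_congr rfl fun τ _ => ?_
    rw [← Finset.sum_mul, ← hconst τ]
  have hcard := hfib (fun _ => 1) (fun _ _ _ => rfl)
  simp only [Finset.sum_const, nsmul_eq_mul, mul_one] at hcard
  rw [hT.card, hT'.card] at hcard
  have hpos : (0 : ℝ) < (Module.finrank ℚ L : ℝ) := by
    exact_mod_cast Module.finrank_pos
  rw [hfib f hf, hcard, mul_div_assoc, div_self hpos.ne', mul_one]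

end Fermat.Agent.S17.GF
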