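import Fermat.Agent.S17.GF.Integral
import Fermat.Agent.S17.GF.RepsSum

/-!
# S17, block GF : the product formula
-/

set_option autoImplicit false

namespace Fermat.Agent.S17.GF

/-- a finite sum over the places: `∑ᶠ` over `PlQ` computed on a finite set containing the support. -/
theorem finsum_eq_sum_of_finite {f : PlQ → ℝ} {S : Set PlQ} (hS : S.Finite)
    (hf : ∀ v, v ∉ S → f v = 0) : ∑ᶠ v, f v = ∑ v ∈ hS.toFinset, f v := by
  apply finsum_eq_sum_of_support_subset
  intro v hv
  rw [Set.Finite.coe_toFinset]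
  by_contra h
  exact hv (hf v h)

/-- the statement "finite support and sum zero" for a natural number. -/
def Product_Good (x : Kb) : Prop :=
  (Function.support fun v : PlQ => Real.log (av v x)).Finite ∧
    ∑ᶠ v : PlQ, Real.log (av v x) = 0

theorem Product_Good_one : Product_Good 1 := by
  have h : (fun v : PlQ => Real.log (av v (1 : Kb))) = fun _ => 0 := by
    funext v
    simp
  refine ⟨?_, ?_⟩
  · rw [h]; simp
  · rw [h]; simp

theorem Product_Good_mul {x y : Kb} (hx0 : x ≠ 0) (hy0 : y ≠ 0) (hx : Product_Good x)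
    (hy : Product_Good y) : Product_Good (x * y) := by
  have h : (fun v : PlQ => Real.log (av v (x * y))) =
      fun v => Real.log (av v x) + Real.log (av v y) := by
    funext v
    rw [map_mul, Real.log_mul ((av v).ne_zero hx0) ((av v).ne_zero hy0)]
  refine ⟨?_, ?_⟩
  · rw [h]
    exact (hx.1.union hy.1).subset (Function.support_add _ _)
  · rw [h, finsum_add_distrib hx.1 hy.1, hx.2, hy.2, add_zero]

theorem Product_Good_inv {x : Kb} (hx : Product_Good x) : Product_Good x⁻¹ := by
  have h : (fun v : PlQ => Real.log (av v x⁻¹)) = fun v => - Real.log (av v x) := by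
    funext v
    rw [map_inv₀, Real.log_inv]
  refine ⟨?_, ?_⟩
  · rw [h]
    exact hx.1.subset (fun v hv h0 => hv (by simp only [h0, neg_zero]))
  · rw [h, finsum_neg_distrib, hx.2, neg_zero]

theorem Product_Good_neg {x : Kb} (hx : Product_Good x) : Product_Good (-x) := by
  have h : (fun v : PlQ => Real.log (av v (-x))) = fun v => Real.log (av v x) := by
    funext v
    rw [map_neg_eq_map]
  refine ⟨?_, ?_⟩
  · rw [h]
    exact hx.1
  · rw [h, hx.2]

theorem Product_Good_prime (q : Nat.Primes) : Product_Good ((q : ℕ) : Kb) := by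
  have hcast : ((q : ℕ) : Kb) = algebraMap ℚ Kb ((q : ℕ) : ℚ) := by simp
  have hoff : ∀ v : PlQ, v ∉ ({none, some q} : Set PlQ) →
      Real.log (av v ((q : ℕ) : Kb)) = 0 := by
    intro v hv
    match v, hv with
    | none, hv => exact absurd (by simp) hv
    | some p, hv =>
      have hpq : (p : ℕ) ≠ (q : ℕ) := by
        intro h
        apply hv
        have : p = q := Subtype.ext h
        simp [this]
      rw [hcast, av_some_rat, padicNorm.padicNorm_of_prime_of_ne hpq]
      simp
  have hfin : ({none, some q} : Set PlQ).Finite := by simp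
  refine ⟨hfin.subset ?_, ?_⟩
  · intro v hv
    by_contra h
    exact hv (hoff v h)
  · rw [finsum_eq_sum_of_finite hfin hoff]
    have : hfin.toFinset = ({none, some q} : Finset PlQ) := by
      ext v; simp
    rw [this, Finset.sum_pair (by simp)]
    have h2 : av (some q) ((q : ℕ) : Kb) = (((q : ℕ) : ℝ))⁻¹ := by
      rw [hcast, av_some_rat, padicNorm.padicNorm_p_of_prime]
      simp
    have h1 : av none ((q : ℕ) : Kb) = ((q : ℕ) : ℝ) := by
      rw [hcast, av_none_rat]
      simp
    rw [h1, h2, Real.log_inv, add_neg_cancel]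

theorem Product_Good_nat (n : ℕ) (hn : n ≠ 0) : Product_Good (n : Kb) := by
  induction n using induction_on_primes with
  | zero => exact absurd rfl hn
  | one => simpa using Product_Good_one
  | prime_mul p a hp ih =>
    have ha : a ≠ 0 := by
      rintro rfl
      simp at hn
    rw [Nat.cast_mul]
    exact Product_Good_mul (by exact_mod_cast hp.ne_zero) (by exact_mod_cast ha)
      (Product_Good_prime ⟨p, hp⟩) (ih ha)

theorem Product_Good_int (n : ℤ) (hn : n ≠ 0) : Product_Good (n : Kb) := by
  have h := Product_Good_nat n.natAbs (Int.natAbs_ne_zero.mpr hn)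
  rcases Int.natAbs_eq n with h' | h'
  · rw [h']
    simpa using h
  · rw [h']
    simpa using Product_Good_neg h

theorem Product_Good_rat {r : ℚ} (hr : r ≠ 0) : Product_Good (algebraMap ℚ Kb r) := by
  have h1 : algebraMap ℚ Kb r = (r.num : Kb) * ((r.den : ℕ) : Kb)⁻¹ := by
    conv_lhs => rw [← Rat.num_div_den r]
    simp [div_eq_mul_inv]
  rw [h1]
  have hnum : r.num ≠ 0 := Rat.num_ne_zero.mpr hr
  exact Product_Good_mul (by exact_mod_cast hnum) (inv_ne_zero (by exact_mod_cast r.den_nz))
    (Product_Good_int _ hnum) (Product_Good_inv (Product_Good_nat _ r.den_nz))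

/-- **Product formula for `ℚ`.**
PROOF.  `log |r|_p = - v_p(r) log p` (`av_some_rat`, `padicNorm.eq_zpow_of_nonzero`), the support is
contained in the primes dividing `num * den`; `|r| = ∏ p ^ v_p(r)`: write `r = num / den`, use
`Nat.factorization_prod_pow_eq_self` for `num.natAbs` and `den`, `padicValRat.div`/`padicValRat_def`.
Induction-free alternative: both `r ↦ log |r|_∞` and `r ↦ -∑_p log |r|_p` are homomorphisms
`ℚˣ → ℝ` which agree on `-1` and on the primes. -/
theorem sum_log_av_rat {r : ℚ} (hr : r ≠ 0) :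
    ∑ᶠ v : PlQ, Real.log (av v (algebraMap ℚ Kb r)) = 0 :=
  (Product_Good_rat hr).2

/-- **(G3) Product formula for a number field `L ⊆ ℚ̄`.**
`∑_τ log |τ a|_v = log |∏_τ τ a|_v = log |N a|_v` (`IsReps.prod_apply_eq_norm`, `Real.log_prod`). -/
theorem product_formula {L : IntermediateField ℚ Kb} [FiniteDimensional ℚ L] {T : Finset GQ}
    (hT : IsReps L T) {a : Kb} (haL : a ∈ L) (ha : a ≠ 0) :
    ∑ᶠ v : PlQ, ∑ τ ∈ T, Real.log (avt v τ a) = 0 := by
  have hnorm : Algebra.norm ℚ (⟨a, haL⟩ : L) ≠ 0 := by
    rw [Algebra.norm_ne_zero_iff]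
    intro h
    exact ha (congrArg Subtype.val h)
  rw [← sum_log_av_rat hnorm]
  congr 1
  funext v
  rw [← hT.prod_apply_eq_norm ⟨a, haL⟩, map_prod, Real.log_prod]
  · rfl
  · intro τ _
    exact (av v).ne_zero (by simpa using ha)

end Fermat.Agent.S17.GF
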