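import Fermat.Agent.S17.GF.Abs

/-!
# S17, block GF : representatives of `G_ℚ / G_L`
-/

set_option autoImplicit false

namespace Fermat.Agent.S17.GF

open Polynomial

/-- `T` is a system of representatives of `G_ℚ / G_L`: every embedding `L → ℚ̄` is the restriction of
exactly one `τ ∈ T`. -/
def IsReps (L : IntermediateField ℚ Kb) (T : Finset GQ) : Prop :=
  ∀ φ : L →ₐ[ℚ] Kb, ∃! τ : GQ, τ ∈ T ∧ ∀ x : L, τ (x : Kb) = φ x

theorem Reps_isGalois_aux (inst : Algebra ℚ (AlgebraicClosure ℚ)) :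
    @IsGalois ℚ _ (AlgebraicClosure ℚ) _ inst := by
  have h : inst = AlgebraicClosure.instAlgebra ℚ := Subsingleton.elim _ _
  rw [h]
  infer_instance

instance Reps_instIsGalois : IsGalois ℚ Kb := Reps_isGalois_aux inferInstance

instance Reps_instNormal : Normal ℚ Kb := IsGalois.to_normal

/-- every embedding of `L` extends to an automorphism of `ℚ̄`. -/
theorem Reps_exists_extension (L : IntermediateField ℚ Kb) (φ : L →ₐ[ℚ] Kb) :
    ∃ τ : GQ, ∀ x : L, τ (x : Kb) = φ x := by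
  refine ⟨AlgEquiv.ofBijective (φ.liftNormal Kb)
    (Algebra.IsAlgebraic.algHom_bijective (φ.liftNormal Kb)), fun x => ?_⟩
  exact φ.liftNormal_commutes Kb x

/-- the restriction of `τ` to `L`. -/
noncomputable def Reps_res (L : IntermediateField ℚ Kb) (τ : GQ) : L →ₐ[ℚ] Kb :=
  (τ : Kb →ₐ[ℚ] Kb).comp L.val

theorem Reps_res_apply (L : IntermediateField ℚ Kb) (τ : GQ) (x : L) :
    Reps_res L τ x = τ (x : Kb) := rfl

/-- `IsReps` means that restriction is a bijection from `T` to the embeddings. -/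
theorem Reps_bijOn {L : IntermediateField ℚ Kb} {T : Finset GQ} (hT : IsReps L T) :
    Set.BijOn (Reps_res L) (T : Set GQ) Set.univ := by
  refine ⟨fun _ _ => trivial, ?_, ?_⟩
  · intro τ hτ τ' hτ' h
    obtain ⟨τ₀, -, huniq⟩ := hT (Reps_res L τ)
    rw [huniq τ ⟨hτ, fun _ => rfl⟩, huniq τ' ⟨hτ', fun x => by rw [h]; rfl⟩]
  · intro φ _
    obtain ⟨τ, ⟨hτ, h⟩, -⟩ := hT φ
    exact ⟨τ, hτ, AlgHom.ext h⟩

/-- Existence: every `φ : L →ₐ[ℚ] ℚ̄` extends to an automorphism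
(`AlgHom.liftNormal` / `IntermediateField.exists_algHom_of_splits` + `AlgEquiv.ofBijective`,
`Algebra.IsAlgebraic.algHom_bijective`); `L →ₐ[ℚ] ℚ̄` is a `Fintype`; take the image of a section. -/
theorem exists_isReps (L : IntermediateField ℚ Kb) [FiniteDimensional ℚ L] :
    ∃ T : Finset GQ, IsReps L T := by
  classical
  choose e he using Reps_exists_extension L
  refine ⟨Finset.univ.image e, fun φ => ⟨e φ, ⟨Finset.mem_image_of_mem e (Finset.mem_univ φ), he φ⟩,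
    ?_⟩⟩
  rintro τ ⟨hτ, h⟩
  obtain ⟨ψ, -, rfl⟩ := Finset.mem_image.1 hτ
  have : ψ = φ := AlgHom.ext fun x => by rw [← he ψ x, h x]
  rw [this]

variable {L : IntermediateField ℚ Kb} {T : Finset GQ}

theorem IsReps.card [FiniteDimensional ℚ L] (hT : IsReps L T) : T.card = Module.finrank ℚ L := by
  classical
  rw [← AlgHom.card ℚ L Kb, ← Finset.card_univ]
  refine Finset.card_bij (fun τ _ => Reps_res L τ) (fun _ _ => Finset.mem_univ _)
    (fun τ hτ τ' hτ' h => (Reps_bijOn hT).injOn hτ hτ' h) (fun φ _ => ?_)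
  obtain ⟨τ, hτ, h⟩ := (Reps_bijOn hT).surjOn (Set.mem_univ φ)
  exact ⟨τ, hτ, h⟩

theorem IsReps.nonempty (hT : IsReps L T) : T.Nonempty := by
  obtain ⟨τ, ⟨hτ, -⟩, -⟩ := hT L.val
  exact ⟨τ, hτ⟩

/-- Reindexing: a sum over `T` is a sum over the embeddings. -/
theorem IsReps.sum_eq [FiniteDimensional ℚ L] (hT : IsReps L T) {M : Type*} [AddCommMonoid M]
    (f : (L →ₐ[ℚ] Kb) → M) :
    ∑ τ ∈ T, f ((τ : Kb →ₐ[ℚ] Kb).comp L.val) = ∑ φ : L →ₐ[ℚ] Kb, f φ := by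
  refine Finset.sum_bij (fun τ _ => Reps_res L τ) (fun _ _ => Finset.mem_univ _)
    (fun τ hτ τ' hτ' h => (Reps_bijOn hT).injOn hτ hτ' h) (fun φ _ => ?_) (fun _ _ => rfl)
  obtain ⟨τ, hτ, h⟩ := (Reps_bijOn hT).surjOn (Set.mem_univ φ)
  exact ⟨τ, hτ, h⟩

theorem IsReps.prod_eq [FiniteDimensional ℚ L] (hT : IsReps L T) {M : Type*} [CommMonoid M]
    (f : (L →ₐ[ℚ] Kb) → M) :
    ∏ τ ∈ T, f ((τ : Kb →ₐ[ℚ] Kb).comp L.val) = ∏ φ : L →ₐ[ℚ] Kb, f φ := by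
  refine Finset.prod_bij (fun τ _ => Reps_res L τ) (fun _ _ => Finset.mem_univ _)
    (fun τ hτ τ' hτ' h => (Reps_bijOn hT).injOn hτ hτ' h) (fun φ _ => ?_) (fun _ _ => rfl)
  obtain ⟨τ, hτ, h⟩ := (Reps_bijOn hT).surjOn (Set.mem_univ φ)
  exact ⟨τ, hτ, h⟩

/-- every `σ ∈ G_ℚ` is `τ ρ` with `τ ∈ T`, `ρ ∈ G_L`. -/
theorem IsReps.exists_eq_mul (hT : IsReps L T) (σ : GQ) :
    ∃ τ ∈ T, ∃ ρ ∈ L.fixingSubgroup, σ = τ * ρ := by
  obtain ⟨τ, ⟨hτ, h⟩, -⟩ := hT (Reps_res L σ)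
  refine ⟨τ, hτ, τ⁻¹ * σ, ?_, by rw [mul_inv_cancel_left]⟩
  rw [IntermediateField.mem_fixingSubgroup_iff]
  intro x hx
  have h1 : τ x = σ x := h ⟨x, hx⟩
  rw [AlgEquiv.mul_apply, ← h1]
  exact τ.symm_apply_apply x

/-- Galois correspondence: an element fixed by `G_L` lies in `L`
(`InfiniteGalois.fixedField_fixingSubgroup`; `IsGalois ℚ ℚ̄`). -/
theorem mem_of_forall_fixingSubgroup (L : IntermediateField ℚ Kb) {a : Kb}
    (h : ∀ ρ ∈ L.fixingSubgroup, ρ a = a) : a ∈ L := by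
  rw [← InfiniteGalois.fixedField_fixingSubgroup L, IntermediateField.mem_fixedField_iff]
  exact h

end Fermat.Agent.S17.GF
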