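import Fermat.Agent.S17.GF.Integral

/-!
# S17, block GF : the sup norm of a vector with respect to an absolute value
-/

set_option autoImplicit false

namespace Fermat.Agent.S17.GF

variable {ι : Type*} [Fintype ι]

/-- the sup norm of a vector with respect to an absolute value (`0` if `ι` is empty). -/
noncomputable def vnorm (w : AbsoluteValue Kb ℝ) (x : ι → Kb) : ℝ :=
  (Finset.univ.sup fun i => (⟨w (x i), w.nonneg _⟩ : NNReal) : NNReal)

theorem le_vnorm (w : AbsoluteValue Kb ℝ) (x : ι → Kb) (i : ι) : w (x i) ≤ vnorm w x := by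
  have h := Finset.le_sup (f := fun i => (⟨w (x i), w.nonneg _⟩ : NNReal)) (Finset.mem_univ i)
  exact_mod_cast h

theorem vnorm_le_iff (w : AbsoluteValue Kb ℝ) (x : ι → Kb) {c : ℝ} (hc : 0 ≤ c) :
    vnorm w x ≤ c ↔ ∀ i, w (x i) ≤ c := by
  constructor
  · intro h i
    exact le_trans (le_vnorm w x i) h
  · intro h
    have : (Finset.univ.sup fun i => (⟨w (x i), w.nonneg _⟩ : NNReal)) ≤ (⟨c, hc⟩ : NNReal) := by
      apply Finset.sup_le
      intro i _
      exact h i
    exact this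

theorem vnorm_nonneg (w : AbsoluteValue Kb ℝ) (x : ι → Kb) : 0 ≤ vnorm w x := NNReal.coe_nonneg _

theorem exists_eq_vnorm [Nonempty ι] (w : AbsoluteValue Kb ℝ) (x : ι → Kb) :
    ∃ i, vnorm w x = w (x i) := by
  obtain ⟨i, _, hi⟩ := Finset.exists_mem_eq_sup (Finset.univ : Finset ι) Finset.univ_nonempty
    (fun i => (⟨w (x i), w.nonneg _⟩ : NNReal))
  exact ⟨i, congrArg NNReal.toReal hi⟩

theorem vnorm_pos (w : AbsoluteValue Kb ℝ) {x : ι → Kb} (hx : x ≠ 0) : 0 < vnorm w x := by
  obtain ⟨i, hi⟩ := Function.ne_iff.mp hx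
  exact lt_of_lt_of_le (w.pos hi) (le_vnorm w x i)

theorem vnorm_smul (w : AbsoluteValue Kb ℝ) (c : Kb) (x : ι → Kb) :
    vnorm w (c • x) = w c * vnorm w x := by
  apply le_antisymm
  · rw [vnorm_le_iff w _ (mul_nonneg (w.nonneg _) (vnorm_nonneg w x))]
    intro i
    rw [Pi.smul_apply, smul_eq_mul, map_mul]
    exact mul_le_mul_of_nonneg_left (le_vnorm w x i) (w.nonneg _)
  · by_cases hc : c = 0
    · subst hc
      rw [map_zero, zero_mul]
      exact vnorm_nonneg _ _
    · have hwc : 0 < w c := w.pos hc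
      rw [← le_div_iff₀' hwc, vnorm_le_iff w _ (div_nonneg (vnorm_nonneg _ _) hwc.le)]
      intro i
      rw [le_div_iff₀' hwc, ← map_mul]
      exact le_vnorm w (c • x) i

/-- for `x ≠ 0`: `‖τ x‖_v = 1` for all `τ` and almost all `v`. -/
theorem finite_vnorm_ne_one {x : ι → Kb} (hx : x ≠ 0) :
    {v : PlQ | ∃ τ : GQ, vnorm (avt v τ) x ≠ 1}.Finite := by
  classical
  have hfin : (⋃ i ∈ (Finset.univ.filter fun i => x i ≠ 0 : Finset ι),
      {v : PlQ | ∃ τ : GQ, avt v τ (x i) ≠ 1}).Finite := by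
    apply Set.Finite.biUnion (Finset.finite_toSet _)
    intro i hi
    have hi' : x i ≠ 0 := by simpa using hi
    exact finite_avt_ne_one hi'
  refine hfin.subset ?_
  rintro v ⟨τ, hτ⟩
  by_contra hv
  apply hτ
  have hall : ∀ i, x i ≠ 0 → avt v τ (x i) = 1 := by
    intro i hi
    by_contra h
    apply hv
    simp only [Set.mem_iUnion]
    exact ⟨i, by simpa using hi, τ, h⟩
  obtain ⟨i, hi⟩ := Function.ne_iff.mp hx
  apply le_antisymm
  · rw [vnorm_le_iff _ _ zero_le_one]
    intro j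
    by_cases hj : x j = 0
    · rw [hj, map_zero]; exact zero_le_one
    · exact (hall j hj).le
  · rw [← hall i hi]
    exact le_vnorm _ _ i

end Fermat.Agent.S17.GF
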