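import Fermat.Agent.S17.GF.Product
import Fermat.Agent.S17.GF.VNorm

/-!
# S17, block GF : the height of a vector with coordinates in a number field
-/

set_option autoImplicit false

namespace Fermat.Agent.S17.GF

variable {ι : Type*} [Fintype ι]

/-- **The height** (relative to `L`, not normalised by the degree) of a vector:
`h_T(x) = ∑_v ∑_{τ ∈ T} log max_i |τ x_i|_v`. -/
noncomputable def ht (T : Finset GQ) (x : ι → Kb) : ℝ :=
  ∑ᶠ v : PlQ, ∑ τ ∈ T, Real.log (vnorm (avt v τ) x)

theorem Height_support_vnorm (T : Finset GQ) {x : ι → Kb} (hx : x ≠ 0) :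
    (Function.support fun v : PlQ => ∑ τ ∈ T, Real.log (vnorm (avt v τ) x)).Finite := by
  refine (finite_vnorm_ne_one hx).subset ?_
  intro v hv
  by_contra h
  apply hv
  apply Finset.sum_eq_zero
  intro τ _
  have : vnorm (avt v τ) x = 1 := by
    by_contra h'
    exact h ⟨τ, h'⟩
  rw [this, Real.log_one]

theorem Height_support_avt (T : Finset GQ) {c : Kb} (hc : c ≠ 0) :
    (Function.support fun v : PlQ => ∑ τ ∈ T, Real.log (avt v τ c)).Finite := by
  refine (finite_avt_ne_one hc).subset ?_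
  intro v hv
  by_contra h
  apply hv
  apply Finset.sum_eq_zero
  intro τ _
  have : avt v τ c = 1 := by
    by_contra h'
    exact h ⟨τ, h'⟩
  rw [this, Real.log_one]

variable {L : IntermediateField ℚ Kb} [FiniteDimensional ℚ L] {T : Finset GQ}

/-- invariance under scaling (product formula). -/
theorem ht_smul (hT : IsReps L T) {c : Kb} (hcL : c ∈ L) (hc : c ≠ 0) {x : ι → Kb} (hx : x ≠ 0) :
    ht T (c • x) = ht T x := by
  have h : (fun v : PlQ => ∑ τ ∈ T, Real.log (vnorm (avt v τ) (c • x))) =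
      fun v => (∑ τ ∈ T, Real.log (avt v τ c)) + ∑ τ ∈ T, Real.log (vnorm (avt v τ) x) := by
    funext v
    rw [← Finset.sum_add_distrib]
    apply Finset.sum_congr rfl
    intro τ _
    rw [vnorm_smul, Real.log_mul ((avt v τ).ne_zero hc) (vnorm_pos _ hx).ne']
  unfold ht
  rw [h, finsum_add_distrib (Height_support_avt T hc) (Height_support_vnorm T hx),
    product_formula hT hcL hc, zero_add]

/-- the height is `≥ 0` on vectors with coordinates in `L`
(scale a non-zero coordinate to `1`; then all local norms are `≥ 1`). -/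
theorem ht_nonneg (hT : IsReps L T) {x : ι → Kb} (hxL : ∀ i, x i ∈ L) (hx : x ≠ 0) :
    0 ≤ ht T x := by
  obtain ⟨i, hi⟩ := Function.ne_iff.mp hx
  have hi' : x i ≠ 0 := hi
  rw [← ht_smul hT (L.inv_mem (hxL i)) (inv_ne_zero hi') hx]
  apply finsum_nonneg
  intro v
  apply Finset.sum_nonneg
  intro τ _
  apply Real.log_nonneg
  have h1 := le_vnorm (avt v τ) ((x i)⁻¹ • x) i
  rwa [Pi.smul_apply, smul_eq_mul, inv_mul_cancel₀ hi', map_one] at h1

/-- comparison of the local terms gives a comparison of heights: if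
`‖τ x‖_v ≤ C_v,τ ‖τ y‖_v` with `C = 1` outside a finite set. -/
theorem ht_le_add {x y : ι → Kb} (hx : x ≠ 0) (hy : y ≠ 0) (C : PlQ → GQ → ℝ)
    (hC : ∀ v τ, 0 < C v τ) {S : Set PlQ} (hS : S.Finite) (hC1 : ∀ v, v ∉ S → ∀ τ, C v τ = 1)
    (h : ∀ v, ∀ τ ∈ T, vnorm (avt v τ) x ≤ C v τ * vnorm (avt v τ) y) :
    ht T x ≤ ht T y + ∑ v ∈ hS.toFinset, ∑ τ ∈ T, Real.log (C v τ) := by
  have hoff : ∀ v, v ∉ S → ∑ τ ∈ T, Real.log (C v τ) = 0 := by
    intro v hv
    apply Finset.sum_eq_zero
    intro τ _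
    rw [hC1 v hv τ, Real.log_one]
  have hsuppC : (Function.support fun v : PlQ => ∑ τ ∈ T, Real.log (C v τ)).Finite := by
    refine hS.subset ?_
    intro v hv
    by_contra h'
    exact hv (hoff v h')
  rw [← finsum_eq_sum_of_finite hS hoff]
  unfold ht
  rw [← finsum_add_distrib (Height_support_vnorm T hy) hsuppC]
  apply finsum_le_finsum' (Height_support_vnorm T hx)
  · exact ((Height_support_vnorm T hy).union hsuppC).subset (Function.support_add _ _)
  · intro v
    show ∑ τ ∈ T, Real.log (vnorm (avt v τ) x) ≤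
      ∑ τ ∈ T, Real.log (vnorm (avt v τ) y) + ∑ τ ∈ T, Real.log (C v τ)
    rw [← Finset.sum_add_distrib]
    apply Finset.sum_le_sum
    intro τ hτ
    rw [add_comm, ← Real.log_mul (hC v τ).ne' (vnorm_pos _ hy).ne']
    exact Real.log_le_log (vnorm_pos _ hx) (h v τ hτ)

end Fermat.Agent.S17.GF
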