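import Fermat.Agent.S17.GF.Northcott1
import Fermat.Agent.S17.GF.Height

/-!
# S17, block GF : Northcott's theorem for `ℙⁿ(L)`
-/

set_option autoImplicit false

namespace Fermat.Agent.S17.GF

variable {L : IntermediateField ℚ Kb} [FiniteDimensional ℚ L] {T : Finset GQ}

omit [FiniteDimensional ℚ L] in
/-- the height of a coordinate is at most the height of the vector. -/
theorem Northcott_ht1_le_ht {ι : Type*} [Fintype ι] (T : Finset GQ) {x : ι → Kb} {i : ι}
    (hi : x i = 1) (j : ι) : ht1 T (x j) ≤ ht T x := by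
  have hx : x ≠ 0 := by
    intro h
    rw [h] at hi
    exact zero_ne_one hi
  have hfin : (Function.support fun v : PlQ =>
      ∑ τ ∈ T, Real.log (max 1 (avt v τ (x j)))).Finite := by
    refine (Northcott1_finite_max_ne_one (x j)).subset ?_
    intro v hv
    by_contra h
    apply hv
    apply Finset.sum_eq_zero
    intro τ _
    have : max 1 (avt v τ (x j)) = 1 := by
      by_contra h'
      exact h ⟨τ, h'⟩
    rw [this, Real.log_one]
  refine finsum_le_finsum' hfin (Height_support_vnorm T hx) ?_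
  intro v
  apply Finset.sum_le_sum
  intro τ _
  apply Real.log_le_log (lt_of_lt_of_le one_pos (le_max_left _ _))
  refine max_le ?_ (le_vnorm _ x j)
  have := le_vnorm (avt v τ) x i
  rwa [hi, map_one] at this

/-- **(G4) Northcott for `ℙⁿ(L)`**, in normalised form: finitely many vectors with coordinates in
`L`, one coordinate equal to `1`, and bounded height (`h_T(x_i) ≤ h_T(x)` for each coordinate). -/
theorem northcott {ι : Type*} [Fintype ι] (hT : IsReps L T) (B : ℝ) :
    {x : ι → Kb | (∀ i, x i ∈ L) ∧ (∃ i, x i = 1) ∧ ht T x ≤ B}.Finite := by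
  refine (Set.Finite.pi' fun _ : ι => finite_ht1_le hT B).subset ?_
  rintro x ⟨hxL, ⟨i, hi⟩, hB⟩ j
  exact ⟨hxL j, (Northcott_ht1_le_ht T hi j).trans hB⟩

/-- Projective form: up to scalars of `ℚ̄ˣ` there are finitely many non-zero vectors which are
proportional to a vector with coordinates in `L` of height `≤ B`. -/
theorem northcott_proj {ι : Type*} [Fintype ι] (hT : IsReps L T) (B : ℝ) :
    ∃ S : Finset (ι → Kb), ∀ x : ι → Kb, x ≠ 0 → (∀ i, x i ∈ L) → ht T x ≤ B →
      ∃ y ∈ S, ∃ c : Kb, c ≠ 0 ∧ x = c • y := by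
  refine ⟨(northcott (ι := ι) hT B).toFinset, fun x hx hxL hB => ?_⟩
  obtain ⟨i, hi⟩ := Function.ne_iff.mp hx
  have hi' : x i ≠ 0 := hi
  refine ⟨(x i)⁻¹ • x, ?_, x i, hi', ?_⟩
  · rw [Set.Finite.mem_toFinset]
    refine ⟨fun j => ?_, ⟨i, ?_⟩, ?_⟩
    · rw [Pi.smul_apply, smul_eq_mul]
      exact L.mul_mem (L.inv_mem (hxL i)) (hxL j)
    · rw [Pi.smul_apply, smul_eq_mul, inv_mul_cancel₀ hi']
    · rw [ht_smul hT (L.inv_mem (hxL i)) (inv_ne_zero hi') hx]
      exact hB
  · rw [smul_smul, mul_inv_cancel₀ hi', one_smul]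

end Fermat.Agent.S17.GF
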