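import Fermat.Agent.S17.Contracts
import Fermat.Agent.S17.GF.Northcott

/-!
# S17, block GF : the contract `StmtGF`

For a number field `L ⊆ ℚ̄` and a system `T` of representatives of `G_ℚ / G_L` the family
`(v, τ) ↦ |τ .|_v`, `v` a place of `ℚ`, `τ ∈ T`, is a `GlobalField` structure on `ℚ̄` with
`k0 = L`.
-/

set_option autoImplicit false

namespace Fermat.Agent.S17.GF

/-- a finite sum over `PlQ × T`. -/
theorem Main_finsum_prod (T : Finset GQ) (f : PlQ → GQ → ℝ) {S : Set PlQ} (hS : S.Finite)
    (hf : ∀ v, v ∉ S → ∀ τ, f v τ = 0) :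
    ∑ᶠ w : PlQ × {τ // τ ∈ T}, f w.1 w.2 = ∑ᶠ v : PlQ, ∑ τ ∈ T, f v τ := by
  have hfin : (Function.support fun w : PlQ × {τ // τ ∈ T} => f w.1 w.2).Finite := by
    refine (hS.prod (Set.finite_univ (α := {τ // τ ∈ T}))).subset ?_
    intro w hw
    refine ⟨?_, Set.mem_univ _⟩
    by_contra h
    exact hw (hf w.1 h w.2)
  rw [finsum_curry _ hfin]
  refine finsum_congr fun v => ?_
  rw [finsum_eq_sum_of_fintype]
  exact Finset.sum_coe_sort T (fun τ => f v τ)

theorem Main_sup'_eq_vnorm {n : ℕ} (w : AbsoluteValue Kb ℝ) (x : Fin (n + 1) → Kb) :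
    (Finset.univ.sup' Finset.univ_nonempty fun i => w (x i)) = vnorm w x := by
  apply le_antisymm
  · exact Finset.sup'_le _ _ fun i _ => le_vnorm w x i
  · obtain ⟨i, hi⟩ := exists_eq_vnorm w x
    rw [hi]
    exact Finset.le_sup' (fun i => w (x i)) (Finset.mem_univ i)

/-- **The global field structure attached to `L` and `T`.** -/
noncomputable def globalField (L : IntermediateField ℚ Kb) [FiniteDimensional ℚ L]
    (T : Finset GQ) (hT : IsReps L T) : GlobalField Kb where
  ι := PlQ × {τ // τ ∈ T}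
  abv w := avt w.1 w.2
  arch_finite := by
    refine ((Set.finite_singleton (none : PlQ)).prod
      (Set.finite_univ (α := {τ // τ ∈ T}))).subset ?_
    rintro ⟨v, τ⟩ hw
    refine ⟨?_, Set.mem_univ _⟩
    match v, hw with
    | none, _ => rfl
    | some p, hw => exact absurd (avt_some_nonarch p τ) hw
  supp_finite a ha := by
    refine ((finite_avt_ne_one ha).prod (Set.finite_univ (α := {τ // τ ∈ T}))).subset ?_
    rintro ⟨v, τ⟩ hw
    exact ⟨⟨τ, hw⟩, Set.mem_univ _⟩
  k0 := L.toSubfield
  prod_formula a haL ha := by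
    rw [Main_finsum_prod T (fun v τ => Real.log (avt v τ a)) (finite_avt_ne_one ha)]
    · exact product_formula hT haL ha
    · intro v hv τ
      have : avt v τ a = 1 := by
        by_contra h
        exact hv ⟨τ, h⟩
      rw [this, Real.log_one]
  northcott n B := by
    refine (northcott (ι := Fin (n + 1)) hT B).subset ?_
    rintro x ⟨hxL, ⟨i, hi⟩, hB⟩
    refine ⟨hxL, ⟨i, hi⟩, ?_⟩
    have hx : x ≠ 0 := by
      intro h
      rw [h] at hi
      exact zero_ne_one hi
    have := Main_finsum_prod T (fun v τ => Real.log (vnorm (avt v τ) x)) (finite_vnorm_ne_one hx)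
      (by
        intro v hv τ
        have : vnorm (avt v τ) x = 1 := by
          by_contra h
          exact hv ⟨τ, h⟩
        rw [this, Real.log_one])
    rw [ht, ← this]
    simpa only [Main_sup'_eq_vnorm] using hB

/-- **Block GF.** -/
theorem stmtGF : StmtGF := by
  intro L _
  obtain ⟨T, hT⟩ := exists_isReps L
  exact ⟨globalField L T hT, rfl⟩

end Fermat.Agent.S17.GF
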