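import Mathlib

/-!
# S17 (Mordell-Weil for `J₀(N)`), block GF : one absolute value on `ℚ̄` over each place of `ℚ`

`PlQ = Option Nat.Primes` (`none = ∞`).  `av v : AbsoluteValue ℚ̄ ℝ` extends the normalised
absolute value `|.|_v` of `ℚ`.  The absolute values of a number field `L ⊆ ℚ̄`, counted with their
local degrees, are the `x ↦ av v (τ x)`, `τ` running through representatives of `G_ℚ / G_L`
(file `Reps.lean`); we never need to know this.
-/

set_option autoImplicit false

namespace Fermat.Agent.S17.GF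

/-- `ℚ̄` -/
abbrev Kb : Type := AlgebraicClosure ℚ

/-- `G_ℚ` -/
abbrev GQ : Type := Kb ≃ₐ[ℚ] Kb

/-- The places of `ℚ`; `none` is the archimedean place. -/
abbrev PlQ : Type := Option Nat.Primes

instance instIsAlgebraicKb : Algebra.IsAlgebraic ℚ Kb := AlgebraicClosure.isAlgebraic ℚ

instance instFactPrime (p : Nat.Primes) : Fact (p : ℕ).Prime := ⟨p.2⟩

/-- a fixed embedding `ℚ̄ → ℂ`. -/
noncomputable def embC : Kb →ₐ[ℚ] ℂ := IsAlgClosed.lift

/-- a fixed embedding `ℚ̄ → ℚ̄_p`. -/
noncomputable def embP (p : Nat.Primes) : Kb →ₐ[ℚ] PadicAlgCl (p : ℕ) := IsAlgClosed.lift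

/-- **The chosen absolute value of `ℚ̄` over the place `v` of `ℚ`.** -/
noncomputable def av : PlQ → AbsoluteValue Kb ℝ
  | none => (NormedField.toAbsoluteValue ℂ).comp (f := (embC : Kb →+* ℂ)) embC.injective
  | some p => (NormedField.toAbsoluteValue (PadicAlgCl (p : ℕ))).comp
      (f := (embP p : Kb →+* PadicAlgCl (p : ℕ))) (embP p).injective

theorem av_none_apply (x : Kb) : av none x = ‖embC x‖ := rfl

theorem av_some_apply (p : Nat.Primes) (x : Kb) : av (some p) x = ‖embP p x‖ := rfl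

theorem av_none_rat (r : ℚ) : av none (algebraMap ℚ Kb r) = |(r : ℝ)| := by
  rw [av_none_apply, AlgHom.commutes]
  simp

theorem av_some_rat (p : Nat.Primes) (r : ℚ) :
    av (some p) (algebraMap ℚ Kb r) = (padicNorm (p : ℕ) r : ℝ) := by
  rw [av_some_apply, AlgHom.commutes,
    IsScalarTower.algebraMap_apply ℚ ℚ_[(p : ℕ)] (PadicAlgCl (p : ℕ)), PadicAlgCl.norm_extends]
  simp

theorem av_some_nonarch (p : Nat.Primes) : IsNonarchimedean (av (some p)) := by
  intro x y
  rw [av_some_apply, av_some_apply, av_some_apply, map_add]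
  exact PadicAlgCl.isNonarchimedean (p : ℕ) _ _

/-- The absolute value `x ↦ |τ x|_v`. -/
noncomputable def avt (v : PlQ) (τ : GQ) : AbsoluteValue Kb ℝ :=
  (av v).comp (f := ((τ : Kb →ₐ[ℚ] Kb) : Kb →+* Kb)) τ.injective

@[simp] theorem avt_apply (v : PlQ) (τ : GQ) (x : Kb) : avt v τ x = av v (τ x) := rfl

@[simp] theorem avt_one (v : PlQ) : avt v 1 = av v := by
  ext x; rfl

theorem avt_rat (v : PlQ) (τ : GQ) (r : ℚ) :
    avt v τ (algebraMap ℚ Kb r) = av v (algebraMap ℚ Kb r) := by
  rw [avt_apply, AlgEquiv.commutes]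

theorem avt_some_nonarch (p : Nat.Primes) (τ : GQ) : IsNonarchimedean (avt (some p) τ) := by
  intro x y
  rw [avt_apply, avt_apply, avt_apply, map_add]
  exact av_some_nonarch p _ _

end Fermat.Agent.S17.GF
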