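import Fermat.Agent.S17.GF.NorthcottQ
import Fermat.Agent.S17.GF.Coeff
import Fermat.Agent.S17.GF.RepsSum

/-!
# S17, block GF : Northcott for the elements of a number field
-/

set_option autoImplicit false

namespace Fermat.Agent.S17.GF

open Polynomial

/-- the height of a number: `h_T(a) = h_T(1, a) = ∑_v ∑_τ log max(1, |τ a|_v)`. -/
noncomputable def ht1 (T : Finset GQ) (a : Kb) : ℝ :=
  ∑ᶠ v : PlQ, ∑ τ ∈ T, Real.log (max 1 (avt v τ a))

variable {L : IntermediateField ℚ Kb} [FiniteDimensional ℚ L] {T : Finset GQ}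

omit [FiniteDimensional ℚ L] in
/-- `max(1, |τ a|_v) = 1` for all `τ` and almost all `v`. -/
theorem Northcott1_finite_max_ne_one (a : Kb) :
    {v : PlQ | ∃ τ : GQ, max 1 (avt v τ a) ≠ 1}.Finite := by
  by_cases ha : a = 0
  · have : {v : PlQ | ∃ τ : GQ, max 1 (avt v τ a) ≠ 1} = ∅ := by
      ext v
      simp [ha]
    rw [this]
    exact Set.finite_empty
  · refine (finite_avt_ne_one ha).subset ?_
    rintro v ⟨τ, h⟩
    refine ⟨τ, fun h' => h ?_⟩
    rw [h', max_self]

/-- the local estimate in logarithmic form. -/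
theorem Northcott1_log_le (w : AbsoluteValue Kb ℝ) (T : Finset GQ) (a : GQ → Kb) (c : Kb) (C : ℝ)
    (hC : 1 ≤ C) (h : w c ≤ C * ∏ τ ∈ T, max 1 (w (a τ))) :
    Real.log (max 1 (w c)) ≤ Real.log C + ∑ τ ∈ T, Real.log (max 1 (w (a τ))) := by
  have hpos : ∀ τ ∈ T, (0 : ℝ) < max 1 (w (a τ)) := fun _ _ =>
    lt_of_lt_of_le one_pos (le_max_left _ _)
  have h1 : (1 : ℝ) ≤ ∏ τ ∈ T, max 1 (w (a τ)) :=
    Finset.one_le_prod fun _ _ => le_max_left _ _
  rw [← Real.log_prod (fun τ hτ => (hpos τ hτ).ne'),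
    ← Real.log_mul (by positivity) (by positivity)]
  apply Real.log_le_log (lt_of_lt_of_le one_pos (le_max_left _ _))
  exact max_le (one_le_mul_of_one_le_of_one_le hC h1) h

omit [FiniteDimensional ℚ L] in
/-- the heights of the coefficients of `∏ (X - τ a)`. -/
theorem Northcott1_coeff_ht_le (T : Finset GQ) (a : Kb) (r : ℚ) (k : ℕ)
    (hr : algebraMap ℚ Kb r = (∏ τ ∈ T, (X - C (τ a))).coeff k) :
    ∑ᶠ v : PlQ, Real.log (max 1 (av v (algebraMap ℚ Kb r))) ≤
      (T.card : ℝ) * Real.log 2 + ht1 T a := by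
  set e : PlQ → ℝ := fun v => if v = none then (T.card : ℝ) * Real.log 2 else 0 with he
  have hesum : ∑ᶠ v, e v = (T.card : ℝ) * Real.log 2 := by
    rw [finsum_eq_single e none (fun v hv => by simp [he, hv])]
    simp [he]
  have hefin : (Function.support e).Finite := by
    refine (Set.finite_singleton (none : PlQ)).subset ?_
    intro v hv
    by_contra h
    exact hv (by simp only [he]; rw [if_neg (fun h' => h (by rw [h']; rfl))])
  have hgfin : (Function.support fun v : PlQ => ∑ τ ∈ T, Real.log (max 1 (avt v τ a))).Finite := by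
    refine (Northcott1_finite_max_ne_one a).subset ?_
    intro v hv
    by_contra h
    apply hv
    apply Finset.sum_eq_zero
    intro τ _
    have : max 1 (avt v τ a) = 1 := by
      by_contra h'
      exact h ⟨τ, h'⟩
    rw [this, Real.log_one]
  have hffin : (Function.support fun v : PlQ =>
      Real.log (max 1 (av v (algebraMap ℚ Kb r)))).Finite := by
    refine (Northcott1_finite_max_ne_one (algebraMap ℚ Kb r)).subset ?_
    intro v hv
    refine ⟨1, fun h => hv ?_⟩
    rw [avt_one] at h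
    show Real.log (max 1 (av v (algebraMap ℚ Kb r))) = 0
    rw [h, Real.log_one]
  rw [ht1, ← hesum, ← finsum_add_distrib hefin hgfin]
  refine finsum_le_finsum' hffin ((hefin.union hgfin).subset (Function.support_add _ _)) ?_
  intro v
  show Real.log (max 1 (av v (algebraMap ℚ Kb r))) ≤
    e v + ∑ τ ∈ T, Real.log (max 1 (avt v τ a))
  rw [hr]
  match v with
  | none =>
    have h := Northcott1_log_le (av none) T (fun τ => τ a) _ (2 ^ T.card)
      (one_le_pow₀ one_le_two) (coeff_prod_le (av none) T (fun τ => τ a) k)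
    rw [Real.log_pow] at h
    simpa [he] using h
  | some p =>
    have h := Northcott1_log_le (av (some p)) T (fun τ => τ a) _ 1 le_rfl (by
      rw [one_mul]
      exact coeff_prod_le_of_nonarch (av (some p)) (av_some_nonarch p) T (fun τ => τ a) k)
    rw [Real.log_one] at h
    simpa [he] using h

/-- **Northcott for numbers.**  `P_a = ∏_τ (X - τ a) ∈ ℚ[X]` (`IsReps.exists_poly`); by
`coeff_prod_le(_of_nonarch)` every coefficient `c` of `P_a` has
`∑_v log max(1,|c|_v) ≤ #T log 2 + h_T(a)`; so there are finitely many `P_a` (`finite_rat_ht_le`,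
polynomials of degree `#T` with coefficients in a finite set:
`Polynomial.degreeLT`/`Set.Finite.pi`-type argument), each with finitely many roots; `a` is a root of
`P_a` since some `τ ∈ T` restricts to the identity on `L`. -/
theorem finite_ht1_le (hT : IsReps L T) (B : ℝ) : {a : Kb | a ∈ L ∧ ht1 T a ≤ B}.Finite := by
  classical
  refine (Polynomial.bUnion_roots_finite (algebraMap ℚ Kb) T.card
    (finite_rat_ht_le ((T.card : ℝ) * Real.log 2 + B))).subset ?_
  rintro a ⟨haL, haB⟩
  obtain ⟨P, hPm, hPdeg, hP⟩ := hT.exists_poly ⟨a, haL⟩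
  simp only [Set.mem_iUnion]
  refine ⟨P, ⟨hPdeg.le, fun k => ?_⟩, ?_⟩
  · have h := Northcott1_coeff_ht_le T a (P.coeff k) k (by rw [← hP, coeff_map])
    exact h.trans (by linarith)
  · obtain ⟨τ₀, ⟨hτ₀, h⟩, -⟩ := hT L.val
    have h0 : τ₀ a = a := h ⟨a, haL⟩
    rw [Finset.mem_coe, Multiset.mem_toFinset, mem_roots (hPm.map _).ne_zero, hP, IsRoot.def,
      eval_prod]
    apply Finset.prod_eq_zero hτ₀
    simp [h0]

end Fermat.Agent.S17.GF
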